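import Fermat.Agent.S33.Val.Split.Bounded

/-!
# S33 / Val / Split : approximation by elements of `F`; the conjugates are incomparable
(see `Split/Defs.lean` for the setting; pure Mathlib)
-/

set_option autoImplicit false

namespace Fermat.Agent.S33.Val

variable {K F E : Type*} [Field K] [Field F] [Field E] [Algebra K F] [Algebra K E] [Algebra F E]

theorem Approx_mul_mem_nonunits {W : ValuationSubring E} {x y : E} (hx : x ∈ W)
    (hy : y ∈ W.nonunits) : x * y ∈ W.nonunits := by
  rw [ValuationSubring.mem_nonunits_iff] at hy ⊢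
  rw [map_mul]
  exact lt_of_le_of_lt (mul_le_of_le_one_left' ((W.valuation_le_one_iff x).2 hx)) hy

theorem Approx_mem_nonunits_of_smul {W : ValuationSubring E} {c : K} (hc0 : c ≠ 0)
    (hc : algebraMap K E c ∈ W.nonunits) {x : E} (hx : c⁻¹ • x ∈ W) : x ∈ W.nonunits := by
  have ha : algebraMap K E c ≠ 0 := by
    rw [Ne, map_eq_zero]
    exact hc0
  have h : x = (c⁻¹ • x) * algebraMap K E c := by
    rw [Algebra.smul_def, map_inv₀]
    field_simp
  rw [h]
  exact Approx_mul_mem_nonunits hx hc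

namespace IsSplit

variable [IsScalarTower K F E] {W : ValuationSubring E}

/-- **(P3)** approximation by elements of `F`: `z = y * (1 + t)⁻¹`, in the form `y = z * (1 + t)` with `t` in the maximal ideal.
PROOF. `z = 0`: `y = 0`, `t = 0`.  Otherwise (P1)+(P2) for the finite set `{h z / z | h ∈ G}`: `c ≠ 0`, `c ∈ m_W`, `c • (h z / z) ∈ W`.
`ε := idem (c * c)`, `y := Algebra.trace F E (z * ε)`; `Algebra.trace_eq_sum_automorphisms`:
`algebraMap y = ∑ h, h z * h ε = z * (1 + t)` with `t := (ε - 1) + ∑_{h ≠ 1} (h z / z) * h ε`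
(`Finset.sum_erase`/`Fintype.sum_eq_add_sum_compl`/`Finset.add_sum_erase`).
`ε - 1 = c * c * ((c*c)⁻¹ • (ε - 1)) ∈ m_W`; `(h z / z) * h ε = (c • (h z / z)) * c * ((c*c)⁻¹ • h ε) ∈ m_W`.
The nonunits are closed under addition (`ValuationSubring.nonunits` : use `W.valuation_lt_one_iff` and `Valuation.map_add_lt`,
`Valuation.map_sum_lt`). -/
theorem exists_approx [FiniteDimensional F E] [IsGalois F E] (hW : IsSplit K F W) (z : E) :
    ∃ y : F, ∃ t ∈ W.nonunits, algebraMap F E y = z * (1 + t) := by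
  classical
  rcases eq_or_ne z 0 with rfl | hz
  · refine ⟨0, 0, ?_, by simp⟩
    rw [ValuationSubring.mem_nonunits_iff, map_zero]
    exact zero_lt_one
  obtain ⟨c, hc0, hcm, hcs⟩ := hW.bounded_finset
    (Finset.univ.image (fun h : E ≃ₐ[F] E => h z / z)) (fun w _ => hW.bounded w)
  have hcc0 : c * c ≠ 0 := mul_ne_zero hc0 hc0
  have ha : algebraMap K E c ≠ 0 := by
    rw [Ne, map_eq_zero]
    exact hc0
  have hcW : algebraMap K E c ∈ W := by
    rw [← W.valuation_le_one_iff]
    exact ((ValuationSubring.mem_nonunits_iff W).1 hcm).le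
  have hccm : algebraMap K E (c * c) ∈ W.nonunits := by
    rw [map_mul]
    exact Approx_mul_mem_nonunits hcW hcm
  obtain ⟨ε, hε1, hεh⟩ := hW.idem (c * c) hcc0
  refine ⟨Algebra.trace F E (z * ε),
    (ε - 1) + ∑ h ∈ (Finset.univ : Finset (E ≃ₐ[F] E)).erase 1, (h z / z) * h ε, ?_, ?_⟩
  · rw [ValuationSubring.mem_nonunits_iff]
    refine Valuation.map_add_lt _ ?_ ?_
    · exact (ValuationSubring.mem_nonunits_iff W).1 (Approx_mem_nonunits_of_smul hcc0 hccm hε1)
    · refine Valuation.map_sum_lt _ one_ne_zero ?_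
      intro h hh
      have hh1 : h ≠ 1 := (Finset.mem_erase.1 hh).1
      rw [← ValuationSubring.mem_nonunits_iff]
      have h1 : c • (h z / z) ∈ W := hcs _ (Finset.mem_image.2 ⟨h, Finset.mem_univ _, rfl⟩)
      have h2 := hεh h hh1
      have h3 : (h z / z) * h ε =
          ((c • (h z / z)) * ((c * c)⁻¹ • h ε)) * algebraMap K E c := by
        rw [Algebra.smul_def, Algebra.smul_def, map_inv₀, map_mul]
        field_simp
      rw [h3]
      exact Approx_mul_mem_nonunits (W.mul_mem _ _ h1 h2) hcm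
  · rw [trace_eq_sum_automorphisms,
      ← Finset.add_sum_erase Finset.univ _ (Finset.mem_univ (1 : E ≃ₐ[F] E)), AlgEquiv.one_apply]
    have h4 : ∀ h ∈ (Finset.univ : Finset (E ≃ₐ[F] E)).erase 1,
        h (z * ε) = z * ((h z / z) * h ε) := by
      intro h _
      rw [map_mul]
      field_simp
    rw [Finset.sum_congr rfl h4, ← Finset.mul_sum]
    ring

/-- **(P4)** the conjugates of `W` are pairwise incomparable.
PROOF. `c` from `small`, `ε := idem c`.  `ε = 1 + c * w`, `w ∈ W`: `ε` is a unit of `W` (`1 + nonunit`), `t := ε⁻¹ ∈ W`.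
`g ε = c * w'` is a nonunit, `≠ 0` (`ε ≠ 0`), so `g t = (g ε)⁻¹ ∉ W` (`S36.Val.Basic_mem_nonunits_iff`). -/
theorem exists_not_mem (hW : IsSplit K F W) (g : E ≃ₐ[F] E) (hg : g ≠ 1) : ∃ t ∈ W, g t ∉ W := by
  obtain ⟨c, hc0, hcm⟩ := hW.small
  obtain ⟨ε, hε1, hεh⟩ := hW.idem c hc0
  have h1 : W.valuation (ε - 1) < 1 :=
    (ValuationSubring.mem_nonunits_iff W).1 (Approx_mem_nonunits_of_smul hc0 hcm hε1)
  have h2 : W.valuation ε = 1 := by
    have := Valuation.map_one_add_of_lt W.valuation h1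
    rwa [add_sub_cancel] at this
  have hε0 : ε ≠ 0 := by
    rintro rfl
    rw [map_zero] at h2
    exact zero_ne_one h2
  have h3 : W.valuation (g ε) < 1 :=
    (ValuationSubring.mem_nonunits_iff W).1 (Approx_mem_nonunits_of_smul hc0 hcm (hεh g hg))
  have hg0 : g ε ≠ 0 := by
    rw [Ne, map_eq_zero]
    exact hε0
  refine ⟨ε⁻¹, ?_, ?_⟩
  · rw [← W.valuation_le_one_iff, map_inv₀, h2, inv_one]
  · rw [← W.valuation_le_one_iff, map_inv₀, map_inv₀, not_le]
    exact (one_lt_inv₀ (zero_lt_iff.2 ((map_ne_zero W.valuation).2 hg0))).2 h3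

end IsSplit

end Fermat.Agent.S33.Val
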