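import Fermat.Agent.S33.Val.Split.Defs

/-!
# S33 / Val / Split : scaling into `W`
(see `Split/Defs.lean` for the setting; pure Mathlib)
-/

set_option autoImplicit false

namespace Fermat.Agent.S33.Val

variable {K F E : Type*} [Field K] [Field F] [Field E] [Algebra K F] [Algebra K E] [Algebra F E]

namespace IsSplit

variable [IsScalarTower K F E] {W : ValuationSubring E}

/-- constructor: it is enough to have the idempotents for the integral constants `c`.
PROOF. if `algebraMap K E c ∉ W` then `c⁻¹ ∈ W`; take the `ε` of `c = 1`: `c⁻¹ • x = algebraMap c⁻¹ * (1⁻¹ • x)`. -/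
theorem mk' (cof : ∀ f : F, ∃ c : K, c ≠ 0 ∧ c • algebraMap F E f ∈ W)
    (small : ∃ c : K, c ≠ 0 ∧ algebraMap K E c ∈ W.nonunits)
    (idem : ∀ c : K, c ≠ 0 → algebraMap K E c ∈ W →
      ∃ ε : E, c⁻¹ • (ε - 1) ∈ W ∧ ∀ h : E ≃ₐ[F] E, h ≠ 1 → c⁻¹ • h ε ∈ W) : IsSplit K F W := by
  refine ⟨cof, small, fun c hc => ?_⟩
  by_cases hcW : algebraMap K E c ∈ W
  · exact idem c hc hcW
  · have hinv : algebraMap K E c⁻¹ ∈ W := by
      rw [map_inv₀]
      exact (W.mem_or_inv_mem _).resolve_left hcW
    obtain ⟨ε, h1, h2⟩ := idem 1 one_ne_zero (by rw [map_one]; exact W.one_mem)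
    rw [inv_one, one_smul] at h1
    refine ⟨ε, ?_, fun h hh => ?_⟩
    · rw [Algebra.smul_def]
      exact W.mul_mem _ _ hinv h1
    · have h3 := h2 h hh
      rw [inv_one, one_smul] at h3
      rw [Algebra.smul_def]
      exact W.mul_mem _ _ hinv h3

/-- **(P1)** a finite family of elements which can be scaled into `W` can be scaled simultaneously, by a constant of the maximal ideal.
PROOF. Induction on `s` (`Finset.induction_on`), start with `small`.  Step: `c₁` for `s`, `c₂ • z ∈ W`.  If `algebraMap c₂ ∈ W` take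
`c₁ * c₂`; otherwise `c₂⁻¹ ∈ W`, so `z = c₂⁻¹ • (c₂ • z) ∈ W`: take `c₁`.  (`Algebra.smul_def`, `W.mul_mem`;
`ValuationSubring.mem_nonunits_iff…`: a product of an element of `W` and a nonunit is a nonunit: use
`W.valuation_lt_one_iff`, `W.valuation_le_one_iff`, `mul_lt_one_of_nonneg_of_lt_one_left`-like lemmas.) -/
theorem bounded_finset (hW : IsSplit K F W) (s : Finset E) (hs : ∀ z ∈ s, ∃ c : K, c ≠ 0 ∧ c • z ∈ W) :
    ∃ c : K, c ≠ 0 ∧ algebraMap K E c ∈ W.nonunits ∧ ∀ z ∈ s, c • z ∈ W := by
  classical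
  induction s using Finset.induction_on with
  | empty =>
    obtain ⟨c, hc, hcW⟩ := hW.small
    exact ⟨c, hc, hcW, fun z hz => absurd hz (Finset.notMem_empty z)⟩
  | insert z s _ ih =>
    obtain ⟨c₁, hc₁, hc₁W, h₁⟩ := ih fun w hw => hs w (Finset.mem_insert_of_mem hw)
    obtain ⟨c₂, hc₂, h₂⟩ := hs z (Finset.mem_insert_self z s)
    have ha₁ : algebraMap K E c₁ ∈ W := by
      rw [← W.valuation_le_one_iff]
      exact ((ValuationSubring.mem_nonunits_iff W).mp hc₁W).le
    by_cases hc₂W : algebraMap K E c₂ ∈ W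
    · refine ⟨c₁ * c₂, mul_ne_zero hc₁ hc₂, ?_, fun w hw => ?_⟩
      · rw [ValuationSubring.mem_nonunits_iff, map_mul, map_mul]
        exact mul_lt_one_of_lt_of_le ((ValuationSubring.mem_nonunits_iff W).mp hc₁W)
          ((W.valuation_le_one_iff _).mpr hc₂W)
      · rcases Finset.mem_insert.mp hw with rfl | hw
        · rw [mul_smul, Algebra.smul_def]
          exact W.mul_mem _ _ ha₁ h₂
        · rw [mul_comm, mul_smul, Algebra.smul_def]
          exact W.mul_mem _ _ hc₂W (h₁ w hw)
    · have hinv : (algebraMap K E c₂)⁻¹ ∈ W := (W.mem_or_inv_mem _).resolve_left hc₂W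
      have hz : z ∈ W := by
        have h0 : algebraMap K E c₂ ≠ 0 := by
          rw [Ne, map_eq_zero]; exact hc₂
        have : z = (algebraMap K E c₂)⁻¹ * (c₂ • z) := by
          rw [Algebra.smul_def, inv_mul_cancel_left₀ h0]
        rw [this]
        exact W.mul_mem _ _ hinv h₂
      refine ⟨c₁, hc₁, hc₁W, fun w hw => ?_⟩
      rcases Finset.mem_insert.mp hw with rfl | hw
      · rw [Algebra.smul_def]
        exact W.mul_mem _ _ ha₁ hz
      · exact h₁ w hw

/-- **(P2)** every element of `E` can be scaled into `W`.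
PROOF. `p := minpoly F z`, monic of degree `n + 1` (`z` is integral, `Algebra.IsIntegral.isIntegral`).  (P1) for the finite set of the
`algebraMap F E (p.coeff i)` (`cof`): `c ≠ 0`, `c ∈ W`, `c • p.coeff i ∈ W`.  Then
`(c z)^(n+1) + ∑_{i ≤ n} (c^(n-i) * (c * p_i)) * (c z)^i = c^(n+1) * p(z) = 0`: `S36.Val.mem_of_monic_root`. -/
theorem bounded [FiniteDimensional F E] (hW : IsSplit K F W) (z : E) : ∃ c : K, c ≠ 0 ∧ c • z ∈ W := by
  classical
  have hint : IsIntegral F z := Algebra.IsIntegral.isIntegral z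
  obtain ⟨n, hn⟩ : ∃ n, (minpoly F z).natDegree = n + 1 :=
    ⟨(minpoly F z).natDegree - 1, by have := minpoly.natDegree_pos hint; omega⟩
  obtain ⟨c, hc, hcW, hcs⟩ := hW.bounded_finset
    ((Finset.range (n + 1)).image fun i => algebraMap F E ((minpoly F z).coeff i)) (by
      intro w hw
      obtain ⟨i, -, rfl⟩ := Finset.mem_image.mp hw
      exact hW.cof _)
  have ha : algebraMap K E c ∈ W := by
    rw [← W.valuation_le_one_iff]
    exact ((ValuationSubring.mem_nonunits_iff W).mp hcW).le
  refine ⟨c, hc, ?_⟩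
  refine S36.Val.mem_of_monic_root W n
    (fun i => if i < n + 1 then
      algebraMap K E c ^ (n - i) * (c • algebraMap F E ((minpoly F z).coeff i)) else 0) ?_ _ ?_
  · intro i
    by_cases hi : i < n + 1
    · simp only [hi, if_true]
      exact W.mul_mem _ _ (W.pow_mem ha _)
        (hcs _ (Finset.mem_image.mpr ⟨i, Finset.mem_range.mpr hi, rfl⟩))
    · simp only [hi, if_false]
      exact W.zero_mem
  · have h0 : Polynomial.aeval z (minpoly F z) = 0 := minpoly.aeval F z
    rw [Polynomial.aeval_eq_sum_range, hn, Finset.sum_range_succ, ← hn,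
      Polynomial.Monic.coeff_natDegree (minpoly.monic hint), one_smul, hn] at h0
    have h1 : (c • z) ^ (n + 1) + ∑ i ∈ Finset.range (n + 1),
        (if i < n + 1 then
          algebraMap K E c ^ (n - i) * (c • algebraMap F E ((minpoly F z).coeff i)) else 0) *
          (c • z) ^ i =
        algebraMap K E c ^ (n + 1) *
          (∑ i ∈ Finset.range (n + 1), (minpoly F z).coeff i • z ^ i + z ^ (n + 1)) := by
      rw [mul_add, Finset.mul_sum, add_comm]
      congr 1
      · refine Finset.sum_congr rfl fun i hi => ?_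
        have hi' : i < n + 1 := Finset.mem_range.mp hi
        rw [if_pos hi', Algebra.smul_def c, Algebra.smul_def c, Algebra.smul_def, mul_pow,
          pow_succ, ← pow_sub_mul_pow (algebraMap K E c) (Nat.lt_succ_iff.mp hi')]
        ring
      · rw [Algebra.smul_def, mul_pow]
    rw [h1, h0, mul_zero]

end IsSplit

end Fermat.Agent.S33.Val
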