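import Fermat.Agent.S33.Val.Split.Defs

/-!
# S33 / Val / Split : an element all of whose conjugates are integral is integral
(see `Split/Defs.lean` for the setting; pure Mathlib)
-/

set_option autoImplicit false

namespace Fermat.Agent.S33.Val

variable {K F E : Type*} [Field K] [Field F] [Field E] [Algebra K F] [Algebra K E] [Algebra F E]

/-- **(P0)** pure lemma: if all the conjugates of `z` lie in `W` then `z` lies in every valuation subring `W'` with `W ∩ F ⊆ W' ∩ F`.
PROOF. `P := ∏ g : E ≃ₐ[F] E, (X - C (g z)) : E[X]` is monic, `P.eval z = 0` (factor `g = 1`).  `P.map h = P` for `h ∈ G`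
(`Polynomial.map_prod`, `Fintype.prod_equiv (Equiv.mulLeft h)`), so every coefficient is fixed by `G`, so it is `algebraMap F E a`
(`IsGalois.mem_range_algebraMap_iff_fixed` or `IsGalois.mem_bot_iff_fixed`).  Every coefficient lies in `W`
(`P ∈ Polynomial.lifts W.subtype` : `Subsemiring.prod_mem`, `X - C a` lifts; `Polynomial.lifts_iff_coeff_lifts`), hence `a ∈ W.comap _`,
hence in `W'`: `P ∈ lifts W'.subtype`.  `Polynomial.lifts_and_natDegree_eq_and_monic` gives a monic `q : W'[X]` with `q.map = P`:
`z` is integral over `W'`; `IsIntegrallyClosed.isIntegral_iff` (`W'` is a valuation ring with fraction field `E`).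
(Alternatively `S36.Val.mem_of_monic_root`.) -/
theorem mem_of_conj_mem [FiniteDimensional F E] [IsGalois F E] (W W' : ValuationSubring E)
    (h : W.comap (algebraMap F E) ≤ W'.comap (algebraMap F E)) (z : E)
    (hz : ∀ g : E ≃ₐ[F] E, g z ∈ W) : z ∈ W' := by
  classical
  let P : Polynomial E := ∏ g : E ≃ₐ[F] E, (Polynomial.X - Polynomial.C (g z))
  have hmonic : P.Monic :=
    Polynomial.monic_prod_of_monic _ _ (fun g _ => Polynomial.monic_X_sub_C _)
  have hroot : P.eval z = 0 := by
    rw [Polynomial.eval_prod]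
    exact Finset.prod_eq_zero (Finset.mem_univ 1) (by simp)
  have hfix : ∀ σ : E ≃ₐ[F] E, P.map (σ : E →+* E) = P := by
    intro σ
    rw [Polynomial.map_prod]
    simp only [Polynomial.map_sub, Polynomial.map_X, Polynomial.map_C]
    exact Fintype.prod_equiv (Equiv.mulLeft σ) _ _ (fun g => rfl)
  have hW : ∀ n, P.coeff n ∈ W := by
    have hl : P ∈ Polynomial.lifts W.subtype := by
      apply Subsemiring.prod_mem
      intro g _
      exact ⟨Polynomial.X - Polynomial.C ⟨g z, hz g⟩, by simp⟩
    intro n
    obtain ⟨a, ha⟩ := (Polynomial.lifts_iff_coeff_lifts P).1 hl n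
    rw [← ha]
    exact a.2
  have hW' : ∀ n, P.coeff n ∈ W' := by
    intro n
    have hfixn : ∀ σ : E ≃ₐ[F] E, σ (P.coeff n) = P.coeff n := by
      intro σ
      have h1 := congrArg (fun Q => Q.coeff n) (hfix σ)
      simpa [Polynomial.coeff_map] using h1
    obtain ⟨a, ha⟩ := (IsGalois.mem_range_algebraMap_iff_fixed _).2 hfixn
    have h1 : a ∈ W.comap (algebraMap F E) := by
      show algebraMap F E a ∈ W
      rw [ha]
      exact hW n
    have h2 : algebraMap F E a ∈ W' := h h1
    rw [← ha]
    exact h2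
  have hint : IsIntegral W' z := by
    have hl : P ∈ Polynomial.lifts W'.subtype :=
      (Polynomial.lifts_iff_coeff_lifts P).2 (fun n => ⟨⟨_, hW' n⟩, rfl⟩)
    obtain ⟨q, hq, -, hqm⟩ := Polynomial.lifts_and_natDegree_eq_and_monic hl hmonic
    refine ⟨q, hqm, ?_⟩
    have h3 : Polynomial.eval₂ (algebraMap W' E) z q = (q.map W'.subtype).eval z :=
      (Polynomial.eval_map _ _).symm
    rw [h3, hq]
    exact hroot
  obtain ⟨y, hy⟩ := IsIntegrallyClosed.isIntegral_iff.1 hint
  rw [← hy]
  exact y.2

end Fermat.Agent.S33.Val
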