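import Fermat.Agent.S36.Val.Basic

/-!
# S33 / Val / Split : valuation subrings which split completely in a finite Galois extension (pure Mathlib)

`K ⊆ F ⊆ E` fields, `E / F` finite Galois with group `G = E ≃ₐ[F] E`, `W` a valuation subring of `E`.
`IsSplit K F W` : "`W` is totally split over `F`", expressed by the existence of arbitrarily deep idempotents:
for every constant `c ≠ 0` there is `ε ∈ E` with `ε ≡ 1 (mod c W)` and `h ε ≡ 0 (mod c W)` for all `h ≠ 1` in `G`.

CONSEQUENCES (all elementary):
* `IsSplit.bounded`       : every element of `E` can be scaled into `W` by a nonzero constant;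
* `IsSplit.exists_approx` : every `z : E` is `y * (unit ≡ 1)` with `y : F` (so `W` and `W ∩ F` have the same residue field and the
                            same value group);
* `IsSplit.exists_not_mem`: the conjugates `g W` are pairwise distinct (even incomparable);
* `IsSplit.unique`        : every valuation subring of `E` with the same trace on `F` is a conjugate of `W`.
-/

set_option autoImplicit false

namespace Fermat.Agent.S33.Val

variable (K F : Type*) {E : Type*} [Field K] [Field F] [Field E] [Algebra K F] [Algebra K E] [Algebra F E]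

/-- `W` splits completely over `F` (with arbitrarily deep idempotents, the depth being measured by the constants `c : K`). -/
structure IsSplit (W : ValuationSubring E) : Prop where
  /-- the elements of `F` can be scaled into `W` -/
  cof : ∀ f : F, ∃ c : K, c ≠ 0 ∧ c • algebraMap F E f ∈ W
  /-- the valuation is not trivial on the constants -/
  small : ∃ c : K, c ≠ 0 ∧ algebraMap K E c ∈ W.nonunits
  /-- deep idempotents -/
  idem : ∀ c : K, c ≠ 0 → ∃ ε : E, c⁻¹ • (ε - 1) ∈ W ∧ ∀ h : E ≃ₐ[F] E, h ≠ 1 → c⁻¹ • h ε ∈ W

/-- The conjugate `g W` of a valuation subring: `z ∈ g W ↔ g⁻¹ z ∈ W`. -/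
def cj {F : Type*} [Field F] [Algebra F E] (W : ValuationSubring E) (g : E ≃ₐ[F] E) : ValuationSubring E :=
  W.comap ((g.symm : E ≃ₐ[F] E) : E →+* E)

theorem mem_cj {F : Type*} [Field F] [Algebra F E] (W : ValuationSubring E) (g : E ≃ₐ[F] E) (z : E) :
    z ∈ cj W g ↔ g.symm z ∈ W := Iff.rfl

end Fermat.Agent.S33.Val
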