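import Fermat.Agent.S33.Val.Split.Le

/-!
# S33 / Val / Split : uniqueness up to conjugation
(see `Split/Defs.lean` for the setting; pure Mathlib)
-/

set_option autoImplicit false

namespace Fermat.Agent.S33.Val

variable {K F E : Type*} [Field K] [Field F] [Field E] [Algebra K F] [Algebra K E] [Algebra F E]

namespace IsSplit

variable [IsScalarTower K F E] {W : ValuationSubring E}

/-- **(P6)** no proper inclusion.
PROOF. Let `z ∈ W'`, `g⁻¹ z ∉ W`.  Then `(g⁻¹ z)⁻¹ ∈ m_W`; (P3): `a = (g⁻¹ z)⁻¹ * (1 + t)`, `a ∈ m_W ∩ F = m_{W'} ∩ F`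
(`S36.Val.mem_nonunits_comap_iff`).  Apply `g`: `a = z⁻¹ * (1 + g t)`, and `1 + g t` is a unit of `cj W g`, so `(1 + g t)⁻¹ ∈ W'`:
`z⁻¹ = a * (1 + g t)⁻¹ ∈ m_{W'}`: contradiction with `z ∈ W'` (`z ≠ 0`). -/
theorem eq_of_cj_le [FiniteDimensional F E] [IsGalois F E] (hW : IsSplit K F W) (W' : ValuationSubring E)
    (h : W'.comap (algebraMap F E) = W.comap (algebraMap F E)) (g : E ≃ₐ[F] E) (hg : cj W g ≤ W') :
    W' = cj W g := by
  refine le_antisymm (fun z hz => ?_) hg
  rw [mem_cj]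
  by_contra hzW
  have hz'0 : g.symm z ≠ 0 := by
    intro h0
    rw [h0] at hzW
    exact hzW W.zero_mem
  have hz0 : z ≠ 0 := by
    intro h0
    rw [h0, map_zero] at hz'0
    exact hz'0 rfl
  have hinv : (g.symm z)⁻¹ ∈ W.nonunits :=
    (S36.Val.Basic_mem_nonunits_iff W _).2 (Or.inr (by rwa [inv_inv]))
  obtain ⟨y, t, ht, hy⟩ := hW.exists_approx (g.symm z)⁻¹
  have hvt : W.valuation (1 + t) = 1 :=
    Valuation.map_one_add_of_lt _ ((ValuationSubring.mem_nonunits_iff W).1 ht)
  have hyW : algebraMap F E y ∈ W.nonunits := by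
    rw [ValuationSubring.mem_nonunits_iff, hy, map_mul, hvt, mul_one]
    exact (ValuationSubring.mem_nonunits_iff W).1 hinv
  have hyW' : algebraMap F E y ∈ W'.nonunits := by
    rw [← S36.Val.mem_nonunits_comap_iff, h, S36.Val.mem_nonunits_comap_iff]
    exact hyW
  have h1t0 : 1 + t ≠ 0 := by
    intro h0
    rw [h0, map_zero] at hvt
    exact zero_ne_one hvt
  have hgy : algebraMap F E y = z⁻¹ * (1 + g t) := by
    have h1 := congrArg g hy
    rwa [g.commutes, map_mul, map_inv₀, g.apply_symm_apply, map_add, map_one] at h1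
  have hg0 : 1 + g t ≠ 0 := by
    intro h0
    apply h1t0
    have h2 : g (1 + t) = 0 := by rw [map_add, map_one, h0]
    exact (map_eq_zero g).1 h2
  have hunit : (1 + g t)⁻¹ ∈ W' := by
    apply hg
    rw [mem_cj, map_inv₀, map_add, map_one, g.symm_apply_apply, ← ValuationSubring.valuation_le_one_iff,
      map_inv₀, hvt, inv_one]
  have hzinv : z⁻¹ = algebraMap F E y * (1 + g t)⁻¹ := by
    rw [hgy, mul_assoc, mul_inv_cancel₀ hg0, mul_one]
  have hzn : z⁻¹ ∈ W'.nonunits := by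
    rw [ValuationSubring.mem_nonunits_iff, hzinv, map_mul]
    exact mul_lt_one_of_nonneg_of_lt_one_left zero_le ((ValuationSubring.mem_nonunits_iff W').1 hyW')
      ((ValuationSubring.valuation_le_one_iff W' _).2 hunit)
  rcases (S36.Val.Basic_mem_nonunits_iff W' _).1 hzn with h0 | h0
  · exact hz0 (inv_eq_zero.1 h0)
  · rw [inv_inv] at h0
    exact h0 hz

/-- **Uniqueness up to conjugation.** -/
theorem unique [FiniteDimensional F E] [IsGalois F E] (hW : IsSplit K F W) (W' : ValuationSubring E)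
    (h : W'.comap (algebraMap F E) = W.comap (algebraMap F E)) : ∃ g : E ≃ₐ[F] E, W' = cj W g := by
  obtain ⟨g, hg⟩ := hW.exists_cj_le W' h
  exact ⟨g, hW.eq_of_cj_le W' h g hg⟩

end IsSplit

end Fermat.Agent.S33.Val
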