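import Fermat.Agent.S33.Val.Split.Approx
import Fermat.Agent.S33.Val.Split.Conj

/-!
# S33 / Val / Split : some conjugate of `W` is contained in `W'`
(see `Split/Defs.lean` for the setting; pure Mathlib)
-/

set_option autoImplicit false

namespace Fermat.Agent.S33.Val

variable {K F E : Type*} [Field K] [Field F] [Field E] [Algebra K F] [Algebra K E] [Algebra F E]

theorem Le_nu_add (W : ValuationSubring E) {a b : E} (ha : a ∈ W.nonunits) (hb : b ∈ W.nonunits) :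
    a + b ∈ W.nonunits := by
  rw [ValuationSubring.mem_nonunits_iff] at *
  exact W.valuation.map_add_lt ha hb

theorem Le_nu_mul (W : ValuationSubring E) {a b : E} (ha : a ∈ W) (hb : b ∈ W.nonunits) :
    a * b ∈ W.nonunits := by
  rw [ValuationSubring.mem_nonunits_iff] at *
  rw [map_mul]
  exact lt_of_le_of_lt (mul_le_of_le_one_left' ((W.valuation_le_one_iff a).2 ha)) hb

theorem Le_nu_mul' (W : ValuationSubring E) {a b : E} (ha : a ∈ W.nonunits) (hb : b ∈ W) :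
    a * b ∈ W.nonunits := by
  rw [mul_comm]
  exact Le_nu_mul W hb ha

theorem Le_nu_zero (W : ValuationSubring E) : (0 : E) ∈ W.nonunits := by
  rw [ValuationSubring.mem_nonunits_iff, map_zero]
  exact zero_lt_one

theorem Le_nu_sum (W : ValuationSubring E) {ι : Type*} (s : Finset ι) (f : ι → E)
    (hf : ∀ i ∈ s, f i ∈ W.nonunits) : ∑ i ∈ s, f i ∈ W.nonunits :=
  Finset.sum_induction f (fun a => a ∈ W.nonunits) (fun _ _ => Le_nu_add W) (Le_nu_zero W) hf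

theorem Le_nu_mem (W : ValuationSubring E) {a : E} (ha : a ∈ W.nonunits) : a ∈ W :=
  W.nonunits_subset ha

theorem Le_one_not_nu (W : ValuationSubring E) : (1 : E) ∉ W.nonunits := by
  rw [ValuationSubring.mem_nonunits_iff, map_one]
  exact lt_irrefl _

theorem Le_mem_of_sub_one (W : ValuationSubring E) {a : E} (ha : a - 1 ∈ W.nonunits) : a ∈ W := by
  have h : a = 1 + (a - 1) := by ring
  rw [h]
  exact W.add_mem _ _ W.one_mem (Le_nu_mem W ha)

namespace IsSplit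

variable [IsScalarTower K F E] {W : ValuationSubring E}

/-- **(P5)** some conjugate of `W` is contained in `W'`.
PROOF. By contradiction: for every `g` there is `z_g` with `g⁻¹ z_g ∈ W`, `z_g ∉ W'`; `t_g := z_g⁻¹ ∈ m_{W'}`.
(P3) for `g⁻¹ z_g`: `a_g : F` with `a_g = g⁻¹ z_g * (1 + s_g)`, `s_g ∈ m_W`; so `a_g ∈ W ∩ F = W' ∩ F`.  `u_g := t_g * a_g ∈ m_{W'}` and
`g⁻¹ u_g = 1 + s_g`.  (P1)+(P2) for the finite set `{h u_g | g, h}`: `c`.  `ε := idem (c * c)`, `x := ∑ g, g ε * u_g`.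
* for all `h`: `h⁻¹ x - 1 ∈ m_W`: `h⁻¹ x = ∑ g, (h⁻¹ g) ε * h⁻¹ u_g`; the term `g = h` is `ε * (1 + s_h) ≡ 1`, the others are
  `((c*c)⁻¹ • (h⁻¹ g) ε) * c * (c • h⁻¹ u_g) ∈ m_W`.
* all conjugates of `g ε` are in `W`, so `g ε ∈ W'` (`mem_of_conj_mem`), so `x ∈ m_{W'}`; all the conjugates of `x` are in `W`, so in `W'`.
* `N := ∏ h, h x = algebraMap F E (Algebra.norm F x)` (`Algebra.norm_eq_prod_automorphisms`) lies in `m_{W'}` (factor `h = 1`) and `N - 1 ∈ m_W`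
  (`Finset.prod_induction` with `p a := a ∈ W ∧ a - 1 ∈ W.nonunits`).  `S36.Val.mem_nonunits_comap_iff` + `h`: `N ∈ m_W`, so `1 ∈ m_W`: absurd. -/
theorem exists_cj_le [FiniteDimensional F E] [IsGalois F E] (hW : IsSplit K F W) (W' : ValuationSubring E)
    (h : W'.comap (algebraMap F E) = W.comap (algebraMap F E)) : ∃ g : E ≃ₐ[F] E, cj W g ≤ W' := by
  classical
  by_contra hcon
  push Not at hcon
  have hex : ∀ g : E ≃ₐ[F] E, ∃ z : E, g.symm z ∈ W ∧ z ∉ W' := by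
    intro g
    obtain ⟨z, hz, hz'⟩ := SetLike.not_le_iff_exists.mp (hcon g)
    exact ⟨z, hz, hz'⟩
  choose z hz hz' using hex
  have hz0 : ∀ g, z g ≠ 0 := fun g h0 => hz' g (h0 ▸ W'.zero_mem)
  have hap := fun g : E ≃ₐ[F] E => exists_approx hW (g.symm (z g))
  choose a s hs ha using hap
  have haW : ∀ g, algebraMap F E (a g) ∈ W := by
    intro g
    rw [ha g]
    exact W.mul_mem _ _ (hz g) (W.add_mem _ _ W.one_mem (Le_nu_mem W (hs g)))
  have haW' : ∀ g, algebraMap F E (a g) ∈ W' := by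
    intro g
    have h1 : a g ∈ W.comap (algebraMap F E) := haW g
    rw [← h] at h1
    exact h1
  have htW' : ∀ g, (z g)⁻¹ ∈ W'.nonunits := by
    intro g
    rw [S36.Val.Basic_mem_nonunits_iff, inv_inv]
    exact Or.inr (hz' g)
  have huW' : ∀ g, (z g)⁻¹ * algebraMap F E (a g) ∈ W'.nonunits :=
    fun g => Le_nu_mul' W' (htW' g) (haW' g)
  have hgu : ∀ g : E ≃ₐ[F] E, g.symm ((z g)⁻¹ * algebraMap F E (a g)) = 1 + s g := by
    intro g
    rw [map_mul, map_inv₀, AlgEquiv.commutes, ha g, ← mul_assoc,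
      inv_mul_cancel₀ (by simpa using hz0 g), one_mul]
  obtain ⟨c, hc0, hcW, hcS⟩ := bounded_finset hW
    ((Finset.univ : Finset ((E ≃ₐ[F] E) × (E ≃ₐ[F] E))).image
      (fun gh => gh.2 ((z gh.1)⁻¹ * algebraMap F E (a gh.1))))
    (fun y _ => bounded hW y)
  have hcu : ∀ g h : E ≃ₐ[F] E, c • h ((z g)⁻¹ * algebraMap F E (a g)) ∈ W := fun g h =>
    hcS _ (Finset.mem_image.mpr ⟨(g, h), Finset.mem_univ _, rfl⟩)
  have hcE : algebraMap K E c ≠ 0 := by simpa using hc0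
  obtain ⟨ε, hε1, hε2⟩ := hW.idem (c * c) (mul_ne_zero hc0 hc0)
  have hsm : ∀ y : E, y = algebraMap K E c * (algebraMap K E c * ((c * c)⁻¹ • y)) := by
    intro y
    rw [Algebra.smul_def, map_inv₀, map_mul]
    field_simp
  have hε1' : ε - 1 ∈ W.nonunits := by
    rw [hsm (ε - 1)]
    exact Le_nu_mul' W hcW (W.mul_mem _ _ (Le_nu_mem W hcW) hε1)
  have hεW : ∀ h : E ≃ₐ[F] E, h ε ∈ W := by
    intro h
    by_cases hh : h = 1
    · subst hh
      exact Le_mem_of_sub_one W hε1'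
    · rw [hsm (h ε)]
      exact W.mul_mem _ _ (Le_nu_mem W hcW) (W.mul_mem _ _ (Le_nu_mem W hcW) (hε2 h hh))
  have hεW' : ∀ g : E ≃ₐ[F] E, g ε ∈ W' := fun g =>
    mem_of_conj_mem W W' h.ge (g ε) (fun h' => hεW (h' * g))
  set x : E := ∑ g : E ≃ₐ[F] E, g ε * ((z g)⁻¹ * algebraMap F E (a g)) with hx
  have hxW' : x ∈ W'.nonunits :=
    Le_nu_sum W' _ _ (fun g _ => Le_nu_mul W' (hεW' g) (huW' g))
  have hA : ∀ g0 : E ≃ₐ[F] E, g0.symm x - 1 ∈ W.nonunits := by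
    intro g0
    rw [hx, map_sum, ← Finset.add_sum_erase _ _ (Finset.mem_univ g0), map_mul, hgu g0,
      AlgEquiv.symm_apply_apply]
    have h1 : ε * (1 + s g0) + ∑ g ∈ Finset.univ.erase g0,
        g0.symm (g ε * ((z g)⁻¹ * algebraMap F E (a g))) - 1 =
        ((ε - 1) * (1 + s g0) + s g0) + ∑ g ∈ Finset.univ.erase g0,
        g0.symm (g ε * ((z g)⁻¹ * algebraMap F E (a g))) := by ring
    rw [h1]
    refine Le_nu_add W (Le_nu_add W (Le_nu_mul' W hε1'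
      (W.add_mem _ _ W.one_mem (Le_nu_mem W (hs g0)))) (hs g0)) (Le_nu_sum W _ _ ?_)
    intro g hg
    have hne : g0.symm * g ≠ 1 := by
      intro h1
      apply Finset.ne_of_mem_erase hg
      have h2 : g0⁻¹ * g = 1 := h1
      rw [inv_mul_eq_one] at h2
      exact h2.symm
    have h2 : (c * c)⁻¹ • g0.symm (g ε) ∈ W := hε2 _ hne
    have h3 := hcu g g0.symm
    have h4 : g0.symm (g ε * ((z g)⁻¹ * algebraMap F E (a g))) =
        algebraMap K E c * (((c * c)⁻¹ • g0.symm (g ε)) *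
          (c • g0.symm ((z g)⁻¹ * algebraMap F E (a g)))) := by
      rw [map_mul g0.symm (g ε)]
      generalize g0.symm (g ε) = A1
      generalize g0.symm ((z g)⁻¹ * algebraMap F E (a g)) = A2
      rw [Algebra.smul_def, Algebra.smul_def, map_inv₀, map_mul]
      field_simp
    rw [h4]
    exact Le_nu_mul' W hcW (W.mul_mem _ _ h2 h3)
  have hA' : ∀ h0 : E ≃ₐ[F] E, h0 x - 1 ∈ W.nonunits := fun h0 => hA h0.symm
  have hxc : ∀ h0 : E ≃ₐ[F] E, h0 x ∈ W' := fun h0 =>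
    mem_of_conj_mem W W' h.ge (h0 x) (fun h' => Le_mem_of_sub_one W (hA' (h' * h0)))
  have hN := Algebra.norm_eq_prod_automorphisms F x
  have hN1 : ∏ σ : E ≃ₐ[F] E, σ x ∈ W'.nonunits := by
    rw [← Finset.mul_prod_erase _ _ (Finset.mem_univ (1 : E ≃ₐ[F] E))]
    exact Le_nu_mul' W' hxW' (prod_mem (fun σ _ => hxc σ))
  have hN2 : (∏ σ : E ≃ₐ[F] E, σ x) ∈ W ∧ (∏ σ : E ≃ₐ[F] E, σ x) - 1 ∈ W.nonunits := by
    refine Finset.prod_induction (fun σ : E ≃ₐ[F] E => σ x)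
      (fun y => y ∈ W ∧ y - 1 ∈ W.nonunits) ?_ ?_ ?_
    · rintro y y' ⟨h1, h2⟩ ⟨h3, h4⟩
      refine ⟨W.mul_mem _ _ h1 h3, ?_⟩
      have h5 : y * y' - 1 = (y - 1) * y' + (y' - 1) := by ring
      rw [h5]
      exact Le_nu_add W (Le_nu_mul' W h2 h3) h4
    · refine ⟨W.one_mem, ?_⟩
      rw [sub_self]
      exact Le_nu_zero W
    · intro σ _
      exact ⟨Le_mem_of_sub_one W (hA' σ), hA' σ⟩
  have hN3 : ∏ σ : E ≃ₐ[F] E, σ x ∈ W.nonunits := by
    rw [← hN] at hN1 ⊢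
    rw [← S36.Val.mem_nonunits_comap_iff] at hN1 ⊢
    rw [← h]
    exact hN1
  apply Le_one_not_nu W
  have h6 : (1 : E) = (∏ σ : E ≃ₐ[F] E, σ x) + (-1) * ((∏ σ : E ≃ₐ[F] E, σ x) - 1) := by ring
  rw [h6]
  exact Le_nu_add W hN3 (Le_nu_mul W (W.neg_mem _ W.one_mem) hN2.2)

end IsSplit

end Fermat.Agent.S33.Val
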